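/-
P-DIM (S20), helper94: behaviour at infinity, elementary facts on `exp (2πi z t)`.
-/
import Mathlib.NumberTheory.ModularForms.QExpansion
import Mathlib.NumberTheory.ModularForms.Discriminant

set_option autoImplicit false

namespace Fermat.Agent.H94

open Filter Topology Complex Function
open UpperHalfPlane hiding I
open scoped Manifold Real

theorem norm_cexp_two_pi_mul (z : ℍ) (t : ℝ) :
    ‖cexp (2 * π * I * (z : ℂ) * (t : ℂ))‖ = Real.exp (-(2 * π * t * z.im)) := by
  rw [Complex.norm_exp]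
  congr 1
  have : (2 * (π : ℂ) * I * (z : ℂ) * (t : ℂ)) = ((2 * π * t : ℝ) : ℂ) * (I * (z : ℂ)) := by
    push_cast; ring
  rw [this, Complex.re_ofReal_mul]
  simp

theorem norm_cexp_le_one (z : ℍ) {t : ℝ} (ht : 0 ≤ t) :
    ‖cexp (2 * π * I * (z : ℂ) * (t : ℂ))‖ ≤ 1 := by
  rw [norm_cexp_two_pi_mul, Real.exp_le_one_iff]
  have := z.im_pos
  have hpi := Real.pi_pos
  have : 0 ≤ 2 * π * t * z.im := by positivity
  linarith

theorem tendsto_im_atImInfty : Tendsto (fun z : ℍ => z.im) atImInfty atTop :=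
  tendsto_comap

theorem tendsto_cexp_mul_atImInfty {t : ℝ} (ht : 0 < t) :
    Tendsto (fun z : ℍ => cexp (2 * π * I * (z : ℂ) * (t : ℂ))) atImInfty (𝓝 0) := by
  rw [tendsto_zero_iff_norm_tendsto_zero]
  simp_rw [norm_cexp_two_pi_mul]
  have h1 : Tendsto (fun z : ℍ => 2 * π * t * z.im) atImInfty atTop :=
    tendsto_im_atImInfty.const_mul_atTop (by positivity)
  exact Real.tendsto_exp_neg_atTop_nhds_zero.comp h1

theorem tendsto_cexp_neg_mul_norm_atImInfty {t : ℝ} (ht : 0 < t) :
    Tendsto (fun z : ℍ => ‖cexp (-(2 * π * I * (z : ℂ) * (t : ℂ)))‖) atImInfty atTop := by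
  have h0 : ∀ z : ℍ, ‖cexp (-(2 * π * I * (z : ℂ) * (t : ℂ)))‖ = Real.exp (2 * π * t * z.im) := by
    intro z
    have := norm_cexp_two_pi_mul z (-t)
    simp only [ofReal_neg, mul_neg, neg_neg] at this
    rw [this]
    congr 1
    ring
  simp_rw [h0]
  have h1 : Tendsto (fun z : ℍ => 2 * π * t * z.im) atImInfty atTop :=
    tendsto_im_atImInfty.const_mul_atTop (by positivity)
  exact Real.tendsto_exp_atTop.comp h1

/-- `Δ(z) exp(-2πiz) → 1`. -/
theorem tendsto_discriminant_mul_cexp :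
    Tendsto (fun z : ℍ => ModularForm.discriminant z * cexp (-(2 * π * I * (z : ℂ))))
      atImInfty (𝓝 1) := by
  have h := ModularForm.tendsto_atImInfty_tprod_one_sub_eta_q_pow
  refine h.congr ?_
  intro z
  rw [ModularForm.discriminant_eq_q_prod z]
  have hq : Periodic.qParam 1 (z : ℂ) = cexp (2 * π * I * (z : ℂ)) := by
    simp [Periodic.qParam]
  rw [hq, mul_comm (cexp _) _, mul_assoc, ← Complex.exp_add]
  simp

end Fermat.Agent.H94
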