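/-
P-DIM (S20), helper94: behaviour at infinity, analytic lemmas.
A holomorphic `1`-periodic function on the upper half plane whose product with `exp (2πiz)`
tends to zero at `i∞` has a limit at `i∞`.
-/
import Mathlib.NumberTheory.ModularForms.QExpansion
import Mathlib.Analysis.Calculus.DSlope

set_option autoImplicit false

namespace Fermat.Agent.H94

open Filter Topology Complex Function
open UpperHalfPlane hiding I
open scoped Manifold Real

/-- A function on `ℍ` invariant under `z ↦ 1 + z` gives a `1`-periodic function on `ℂ`. -/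
theorem periodic_comp_ofComplex_of_vadd {f : ℍ → ℂ} (hper : ∀ z : ℍ, f ((1 : ℝ) +ᵥ z) = f z) :
    Periodic (f ∘ ofComplex) (1 : ℝ) := by
  intro w
  by_cases hw : 0 < im w
  · have hw1 : 0 < im (w + (1 : ℝ)) := by simpa using hw
    simp only [comp_apply, ofComplex_apply_of_im_pos hw1, ofComplex_apply_of_im_pos hw]
    rw [← hper ⟨w, hw⟩]
    congr 1
    ext
    simp [add_comm]
  · have hw' : im w ≤ 0 := not_lt.mp hw
    have hw1 : im (w + (1 : ℝ)) ≤ 0 := by simpa using hw'
    simp only [comp_apply, ofComplex_apply_of_im_nonpos hw1, ofComplex_apply_of_im_nonpos hw']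

theorem mdiff_cexp_mul (c : ℂ) : MDiff (fun z : ℍ => cexp (c * (z : ℂ))) := by
  rw [UpperHalfPlane.mdifferentiable_iff]
  have : DifferentiableOn ℂ (fun w : ℂ => cexp (c * w)) {z | 0 < z.im} :=
    (Complex.differentiable_exp.comp (differentiable_id.const_mul c)).differentiableOn
  refine this.congr ?_
  intro w hw
  simp [ofComplex_apply_of_im_pos hw]

/-- Key removable-singularity lemma. -/
theorem exists_tendsto_of_periodic {ψ : ℍ → ℂ} (hψ : MDiff ψ)
    (hper : ∀ z : ℍ, ψ ((1 : ℝ) +ᵥ z) = ψ z)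
    (hz : IsZeroAtImInfty (fun z : ℍ => cexp (2 * π * I * (z : ℂ)) * ψ z)) :
    ∃ a : ℂ, Tendsto ψ atImInfty (𝓝 a) := by
  set f : ℍ → ℂ := fun z : ℍ => cexp (2 * π * I * (z : ℂ)) * ψ z with hf
  have hfhol : MDiff f := (mdiff_cexp_mul (2 * π * I)).mul hψ
  have hfper' : ∀ z : ℍ, f ((1 : ℝ) +ᵥ z) = f z := by
    intro z
    simp only [hf, hper z]
    congr 1
    have : ((((1 : ℝ) +ᵥ z : ℍ)) : ℂ) = 1 + (z : ℂ) := by simp
    rw [this, mul_add, Complex.exp_add]
    simp
  have hfper : Periodic (f ∘ ofComplex) (1 : ℝ) := periodic_comp_ofComplex_of_vadd hfper'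
  have hfbdd : IsBoundedAtImInfty f := hz.isBoundedAtImInfty
  have hdiff : DifferentiableAt ℂ (cuspFunction 1 f) 0 :=
    differentiableAt_cuspFunction one_pos hfper hfhol hfbdd (by simp)
  have h0 : cuspFunction 1 f 0 = 0 := hz.cuspFunction_apply_zero one_pos
  refine ⟨deriv (cuspFunction 1 f) 0, ?_⟩
  have hcont : ContinuousAt (dslope (cuspFunction 1 f) 0) 0 := continuousAt_dslope_same.2 hdiff
  have hlim : Tendsto (dslope (cuspFunction 1 f) 0) (𝓝 0) (𝓝 (deriv (cuspFunction 1 f) 0)) := by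
    simpa [dslope_same] using hcont.tendsto
  have hq := qParam_tendsto_atImInfty (h := 1) one_pos
  refine (hlim.comp hq).congr ?_
  intro z
  have hqne : Periodic.qParam 1 (z : ℂ) ≠ 0 := Periodic.qParam_ne_zero _
  simp only [comp_apply]
  rw [dslope_of_ne _ hqne, slope_def_field, h0, sub_zero, sub_zero,
    eq_cuspFunction z one_ne_zero hfper]
  simp only [hf, Periodic.qParam]
  have : cexp (2 * ↑π * I * ↑z / (1 : ℝ)) = cexp (2 * ↑π * I * ↑z) := by simp
  rw [this]
  field_simp

/-- A holomorphic `1`-periodic function tending to `0` at `i∞` decays like `exp (-2π Im z)`. -/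
theorem isBigO_exp_of_periodic_of_tendsto_zero {ψ : ℍ → ℂ} (hψ : MDiff ψ)
    (hper : ∀ z : ℍ, ψ ((1 : ℝ) +ᵥ z) = ψ z) (h0 : Tendsto ψ atImInfty (𝓝 0)) :
    ψ =O[atImInfty] fun z : ℍ => Real.exp (-2 * π * z.im) := by
  have hz : IsZeroAtImInfty ψ := h0
  have := hz.exp_decay_atImInfty (h := 1) one_pos (periodic_comp_ofComplex_of_vadd hper) hψ
    hz.isBoundedAtImInfty
  simpa using this

end Fermat.Agent.H94
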