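/-
P-DIM (S20), helper94: behaviour at infinity, finite Fourier analysis on `Σ ω, ZMod (h ω)`.
-/
import Mathlib.Analysis.Fourier.ZMod
import Mathlib.Data.Matrix.Block
import Mathlib.LinearAlgebra.Matrix.NonsingularInverse

set_option autoImplicit false

namespace Fermat.Agent.H94

open Complex
open scoped Real

section ZModSums

/-- Orthogonality of the standard additive characters of `ZMod n`. -/
theorem sum_stdAddChar_mul (n : ℕ) [NeZero n] (t : ZMod n) :
    ∑ i : ZMod n, ZMod.stdAddChar (t * i) = if t = 0 then (n : ℂ) else 0 := by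
  split_ifs with h
  · simp [h, ZMod.card]
  · exact AddChar.sum_eq_zero_of_ne_one (ZMod.isPrimitive_stdAddChar n h)

theorem stdAddChar_eq_exp (n : ℕ) [NeZero n] (s : ZMod n) :
    ZMod.stdAddChar s = cexp (2 * π * I * (s.val : ℂ) / n) := by
  have := ZMod.stdAddChar_coe (N := n) (s.val : ℤ)
  simpa using this

/-- Sums over `ZMod n` of functions of `val` are sums over `Finset.range n`. -/
theorem sum_zmod_val {M : Type*} [AddCommMonoid M] (n : ℕ) [NeZero n] (f : ℕ → M) :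
    ∑ s : ZMod n, f s.val = ∑ k ∈ Finset.range n, f k := by
  obtain ⟨m, rfl⟩ : ∃ m, n = m + 1 := Nat.exists_eq_succ_of_ne_zero (NeZero.ne n)
  exact Fin.sum_univ_eq_sum_range f (m + 1)

theorem sum_zmod_val_div (n : ℕ) [NeZero n] :
    ∑ s : ZMod n, ((s.val : ℂ) / n) = ((n : ℂ) - 1) / 2 := by
  have hn : (n : ℂ) ≠ 0 := Nat.cast_ne_zero.mpr (NeZero.ne n)
  rw [sum_zmod_val n (fun k => ((k : ℂ) / n)), ← Finset.sum_div]
  have h2 : (∑ k ∈ Finset.range n, (k : ℂ)) * 2 = (n : ℂ) * ((n : ℂ) - 1) := by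
    have := Finset.sum_range_id_mul_two n
    have h3 : ((∑ k ∈ Finset.range n, k : ℕ) : ℂ) * 2 = (n : ℂ) * ((n - 1 : ℕ) : ℂ) := by
      exact_mod_cast congrArg (Nat.cast : ℕ → ℂ) this
    rw [Nat.cast_sum] at h3
    rw [h3, Nat.cast_pred (Nat.pos_of_ne_zero (NeZero.ne n))]
  field_simp
  linear_combination h2

end ZModSums

section Blocks

variable {Ω : Type} [Fintype Ω] [DecidableEq Ω] (h : Ω → ℕ) [∀ ω, NeZero (h ω)]

/-- The index type: pairs (orbit, position in the orbit). -/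
abbrev SigIdx : Type := Σ ω : Ω, ZMod (h ω)

/-- Forward block DFT matrix. -/
noncomputable def dftW : Matrix (SigIdx h) (SigIdx h) ℂ :=
  Matrix.blockDiagonal' fun ω => Matrix.of fun (s r : ZMod (h ω)) =>
    ((h ω : ℂ))⁻¹ * ZMod.stdAddChar (-(r * s))

/-- Inverse block DFT matrix. -/
noncomputable def dftW' : Matrix (SigIdx h) (SigIdx h) ℂ :=
  Matrix.blockDiagonal' fun ω => Matrix.of fun (r s : ZMod (h ω)) =>
    ZMod.stdAddChar (r * s)

theorem dftW'_mul_dftW : dftW' h * dftW h = 1 := by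
  unfold dftW dftW'
  rw [← Matrix.blockDiagonal'_mul, ← Matrix.blockDiagonal'_one]
  congr 1
  funext ω
  ext r r'
  simp only [Matrix.mul_apply, Matrix.of_apply]
  have hn : (h ω : ℂ) ≠ 0 := Nat.cast_ne_zero.mpr (NeZero.ne (h ω))
  have key : ∀ s : ZMod (h ω), ZMod.stdAddChar (r * s) *
      (((h ω : ℂ))⁻¹ * ZMod.stdAddChar (-(r' * s))) =
      ((h ω : ℂ))⁻¹ * ZMod.stdAddChar ((r - r') * s) := by
    intro s
    rw [show (r - r') * s = r * s + -(r' * s) by ring, AddChar.map_add_eq_mul]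
    ring
  simp_rw [key]
  rw [← Finset.mul_sum, sum_stdAddChar_mul]
  by_cases hrr : r = r'
  · subst hrr
    simp [hn]
  · simp [hrr, sub_eq_zero]

theorem dftW_mul_dftW' : dftW h * dftW' h = 1 :=
  mul_eq_one_comm.mp (dftW'_mul_dftW h)

theorem det_dftW'_ne_zero : (dftW' h).det ≠ 0 := by
  have := congrArg Matrix.det (dftW'_mul_dftW h)
  rw [Matrix.det_mul, Matrix.det_one] at this
  exact left_ne_zero_of_mul_eq_one this

theorem norm_dftW'_le (i i' : SigIdx h) : ‖dftW' h i i'‖ ≤ 1 := by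
  obtain ⟨ω, r⟩ := i
  obtain ⟨ω', s⟩ := i'
  unfold dftW'
  by_cases hω : ω = ω'
  · subst hω
    rw [Matrix.blockDiagonal'_apply_eq]
    simp only [Matrix.of_apply]
    rw [ZMod.stdAddChar_apply]
    exact (Circle.norm_coe _).le
  · rw [Matrix.blockDiagonal'_apply_ne _ _ _ hω]
    simp

/-- entries of the product of a block-diagonal matrix with any matrix -/
theorem blockDiagonal'_mul_apply {J : Type*} (b : ∀ ω, Matrix (ZMod (h ω)) (ZMod (h ω)) ℂ)
    (M : Matrix (SigIdx h) J ℂ) (ω : Ω) (s : ZMod (h ω)) (j : J) :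
    (Matrix.blockDiagonal' b * M) ⟨ω, s⟩ j = ∑ r : ZMod (h ω), b ω s r * M ⟨ω, r⟩ j := by
  rw [Matrix.mul_apply, Fintype.sum_sigma]
  rw [Finset.sum_eq_single ω]
  · simp [Matrix.blockDiagonal'_apply_eq]
  · intro ω' _ hω'
    apply Finset.sum_eq_zero
    intro r _
    rw [Matrix.blockDiagonal'_apply_ne _ _ _ (Ne.symm hω'), zero_mul]
  · intro hω
    exact absurd (Finset.mem_univ ω) hω

/-- The total exponent at infinity. -/
noncomputable def expoSum : ℂ := ∑ i : SigIdx h, ((i.2.val : ℂ) / (h i.1 : ℂ))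

omit [DecidableEq Ω] in
theorem two_mul_expoSum :
    2 * expoSum h = (Fintype.card (SigIdx h) : ℂ) - (Fintype.card Ω : ℂ) := by
  unfold expoSum
  rw [Fintype.sum_sigma]
  simp_rw [sum_zmod_val_div]
  rw [Fintype.card_sigma]
  simp only [ZMod.card]
  rw [Finset.mul_sum]
  push_cast
  have : (Fintype.card Ω : ℂ) = ∑ _ω : Ω, (1 : ℂ) := by simp
  rw [this, ← Finset.sum_sub_distrib]
  apply Finset.sum_congr rfl
  intro ω _
  ring

end Blocks

end Fermat.Agent.H94
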