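/-
P-DIM (S20), helper94: behaviour at infinity, version indexed by `Σ ω, ZMod (h ω)`.
-/
import Fermat.Agent.H94.PeriodicLimit
import Fermat.Agent.H94.SigmaDFT
import Fermat.Agent.H94.ExpLemmas
import Mathlib.Topology.Instances.Matrix
import Mathlib.LinearAlgebra.Matrix.ToLinearEquiv

set_option autoImplicit false
set_option linter.unusedSectionVars false

namespace Fermat.Agent.H94

open Filter Topology Complex Function
open UpperHalfPlane hiding I
open scoped Manifold Real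

variable {Ω : Type} [Fintype Ω] [DecidableEq Ω] (h : Ω → ℕ) [∀ ω, NeZero (h ω)]
variable (Φ : SigIdx h → SigIdx h → ℍ → ℂ)

/-- The exponent attached to an index `⟨ω, s⟩`: the real number `s / h ω ∈ [0, 1)`. -/
noncomputable def expo (i : SigIdx h) : ℝ := (i.2.val : ℝ) / (h i.1 : ℝ)

theorem expo_nonneg (i : SigIdx h) : 0 ≤ expo h i := by
  unfold expo; positivity

theorem expo_lt_one (i : SigIdx h) : expo h i < 1 := by
  unfold expo
  have hpos : (0 : ℝ) < (h i.1 : ℝ) := Nat.cast_pos.mpr (Nat.pos_of_ne_zero (NeZero.ne _))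
  rw [div_lt_one hpos]
  exact_mod_cast ZMod.val_lt i.2

theorem expo_cast (i : SigIdx h) : ((expo h i : ℝ) : ℂ) = (i.2.val : ℂ) / (h i.1 : ℂ) := by
  unfold expo; push_cast; rfl

/-- rows = cosets `i`, columns = generators `j`. -/
noncomputable def matM (z : ℍ) : Matrix (SigIdx h) (SigIdx h) ℂ := Matrix.of fun i j => Φ j i z

/-- diagonal matrix of the exponential factors `exp(2πi z s/h)`. -/
noncomputable def matD (z : ℍ) : Matrix (SigIdx h) (SigIdx h) ℂ :=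
  Matrix.diagonal fun i => cexp (2 * π * I * (z : ℂ) * (expo h i : ℂ))

/-- its inverse. -/
noncomputable def matDinv (z : ℍ) : Matrix (SigIdx h) (SigIdx h) ℂ :=
  Matrix.diagonal fun i => cexp (-(2 * π * I * (z : ℂ) * (expo h i : ℂ)))

theorem matD_mul_matDinv (z : ℍ) : matD h z * matDinv h z = 1 := by
  unfold matD matDinv
  rw [Matrix.diagonal_mul_diagonal, ← Matrix.diagonal_one]
  congr 1
  funext i
  rw [← Complex.exp_add]
  simp

theorem matDinv_mul_matD (z : ℍ) : matDinv h z * matD h z = 1 :=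
  mul_eq_one_comm.mp (matD_mul_matDinv h z)

/-- the normalised Fourier components. -/
noncomputable def matPsi (z : ℍ) : Matrix (SigIdx h) (SigIdx h) ℂ :=
  matDinv h z * (dftW h * matM h Φ z)

theorem matM_eq (z : ℍ) : matM h Φ z = dftW' h * (matD h z * matPsi h Φ z) := by
  unfold matPsi
  rw [← Matrix.mul_assoc (matD h z), matD_mul_matDinv, Matrix.one_mul, ← Matrix.mul_assoc,
    dftW'_mul_dftW, Matrix.one_mul]

theorem det_matD (z : ℍ) :
    (matD h z).det = cexp (2 * π * I * (z : ℂ) * expoSum h) := by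
  unfold matD expoSum
  rw [Matrix.det_diagonal, ← Complex.exp_sum, Finset.mul_sum]
  congr 1
  apply Finset.sum_congr rfl
  intro i _
  rw [expo_cast]

theorem det_matM (z : ℍ) :
    (matM h Φ z).det * cexp (-(2 * π * I * (z : ℂ) * expoSum h)) =
      (dftW' h).det * (matPsi h Φ z).det := by
  rw [matM_eq h Φ z, Matrix.det_mul, Matrix.det_mul, det_matD]
  have : cexp (2 * π * I * (z : ℂ) * expoSum h) * cexp (-(2 * π * I * (z : ℂ) * expoSum h)) = 1 := by
    rw [← Complex.exp_add]; simp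
  linear_combination ((dftW' h).det * (matPsi h Φ z).det) * this

/-- explicit formula for the entries of `matPsi`. -/
theorem matPsi_apply (z : ℍ) (ω : Ω) (s : ZMod (h ω)) (j : SigIdx h) :
    matPsi h Φ z ⟨ω, s⟩ j = cexp (-(2 * π * I * (z : ℂ) * (expo h ⟨ω, s⟩ : ℂ))) *
      ∑ r : ZMod (h ω), ((h ω : ℂ))⁻¹ * ZMod.stdAddChar (-(r * s)) * Φ j ⟨ω, r⟩ z := by
  unfold matPsi matDinv
  rw [Matrix.diagonal_mul]
  congr 1
  unfold dftW
  rw [blockDiagonal'_mul_apply]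
  rfl

section Properties

variable {h Φ}
variable (hhol : ∀ j i, MDiff (Φ j i))
variable (hbdd : ∀ j i, IsBoundedAtImInfty (Φ j i))
variable (hper : ∀ (j : SigIdx h) (ω : Ω) (r : ZMod (h ω)) (z : ℍ),
  Φ j ⟨ω, r⟩ ((1 : ℝ) +ᵥ z) = Φ j ⟨ω, r + 1⟩ z)

include hhol in
theorem mdiff_matPsi (i j : SigIdx h) : MDiff (fun z => matPsi h Φ z i j) := by
  obtain ⟨ω, s⟩ := i
  simp_rw [matPsi_apply]
  refine MDifferentiable.mul ?_ ?_
  · have := mdiff_cexp_mul (-(2 * π * I * (expo h ⟨ω, s⟩ : ℂ)))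
    have heq : (fun z : ℍ => cexp (-(2 * π * I * (z : ℂ) * (expo h ⟨ω, s⟩ : ℂ)))) =
        (fun z : ℍ => cexp (-(2 * π * I * (expo h ⟨ω, s⟩ : ℂ)) * (z : ℂ))) := by
      funext z
      congr 1
      ring
    rw [heq]
    exact this
  · have : (fun z : ℍ => ∑ r : ZMod (h ω), ((h ω : ℂ))⁻¹ * ZMod.stdAddChar (-(r * s)) *
        Φ j ⟨ω, r⟩ z) = ∑ r : ZMod (h ω), (fun z : ℍ => ((h ω : ℂ))⁻¹ *
        ZMod.stdAddChar (-(r * s)) * Φ j ⟨ω, r⟩ z) := by
      funext z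
      simp
    rw [this]
    refine MDifferentiable.sum ?_
    intro r _
    exact (mdifferentiable_const).mul (hhol j ⟨ω, r⟩)

include hper in
theorem matPsi_periodic (i j : SigIdx h) (z : ℍ) :
    matPsi h Φ ((1 : ℝ) +ᵥ z) i j = matPsi h Φ z i j := by
  obtain ⟨ω, s⟩ := i
  simp_rw [matPsi_apply, hper]
  have hcoe : ((((1 : ℝ) +ᵥ z : ℍ)) : ℂ) = 1 + (z : ℂ) := by simp
  rw [hcoe]
  -- reindex the sum
  have hsum : ∑ r : ZMod (h ω), ((h ω : ℂ))⁻¹ * ZMod.stdAddChar (-(r * s)) * Φ j ⟨ω, r + 1⟩ z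
      = ZMod.stdAddChar s *
        ∑ r : ZMod (h ω), ((h ω : ℂ))⁻¹ * ZMod.stdAddChar (-(r * s)) * Φ j ⟨ω, r⟩ z := by
    rw [Finset.mul_sum]
    refine Fintype.sum_equiv (Equiv.addRight (1 : ZMod (h ω))) _ _ ?_
    intro r
    simp only [Equiv.coe_addRight]
    have : -(r * s) = s + -((r + 1) * s) := by ring
    rw [this, AddChar.map_add_eq_mul]
    ring
  rw [hsum, stdAddChar_eq_exp, ← mul_assoc, ← Complex.exp_add]
  congr 2
  rw [expo_cast]
  ring

include hbdd in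
theorem bdd_sum (ω : Ω) (s : ZMod (h ω)) (j : SigIdx h) :
    IsBoundedAtImInfty (fun z : ℍ => ∑ r : ZMod (h ω),
      ((h ω : ℂ))⁻¹ * ZMod.stdAddChar (-(r * s)) * Φ j ⟨ω, r⟩ z) := by
  have : (fun z : ℍ => ∑ r : ZMod (h ω), ((h ω : ℂ))⁻¹ * ZMod.stdAddChar (-(r * s)) *
      Φ j ⟨ω, r⟩ z) = ∑ r : ZMod (h ω), (fun z : ℍ => ((h ω : ℂ))⁻¹ *
      ZMod.stdAddChar (-(r * s)) * Φ j ⟨ω, r⟩ z) := by
    funext z
    simp
  rw [this]
  unfold IsBoundedAtImInfty
  refine Finset.sum_induction _ (fun f => BoundedAtFilter atImInfty f) ?_ ?_ ?_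
  · intro f g hf hg
    exact hf.add hg
  · exact (zero_zeroAtFilter _).boundedAtFilter
  · intro r _
    exact (const_boundedAtFilter _ _).mul (hbdd j ⟨ω, r⟩)

include hbdd in
theorem zero_cexp_mul_matPsi (i j : SigIdx h) :
    IsZeroAtImInfty (fun z : ℍ => cexp (2 * π * I * (z : ℂ)) * matPsi h Φ z i j) := by
  obtain ⟨ω, s⟩ := i
  simp_rw [matPsi_apply]
  have h1 : ∀ z : ℍ, cexp (2 * π * I * (z : ℂ)) *
      (cexp (-(2 * π * I * (z : ℂ) * (expo h ⟨ω, s⟩ : ℂ))) *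
        ∑ r : ZMod (h ω), ((h ω : ℂ))⁻¹ * ZMod.stdAddChar (-(r * s)) * Φ j ⟨ω, r⟩ z) =
      cexp (2 * π * I * (z : ℂ) * ((1 - expo h ⟨ω, s⟩ : ℝ) : ℂ)) *
        ∑ r : ZMod (h ω), ((h ω : ℂ))⁻¹ * ZMod.stdAddChar (-(r * s)) * Φ j ⟨ω, r⟩ z := by
    intro z
    rw [← mul_assoc, ← Complex.exp_add]
    congr 2
    push_cast
    ring
  simp_rw [h1]
  have hz : ZeroAtFilter atImInfty
      (fun z : ℍ => cexp (2 * π * I * (z : ℂ) * ((1 - expo h ⟨ω, s⟩ : ℝ) : ℂ))) :=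
    tendsto_cexp_mul_atImInfty (sub_pos.mpr (expo_lt_one h ⟨ω, s⟩))
  exact hz.mul_boundedAtFilter (bdd_sum hbdd ω s j)

include hhol hbdd hper in
theorem exists_lim_matPsi (i j : SigIdx h) :
    ∃ a : ℂ, Tendsto (fun z => matPsi h Φ z i j) atImInfty (𝓝 a) :=
  exists_tendsto_of_periodic (mdiff_matPsi hhol i j) (matPsi_periodic hper i j)
    (zero_cexp_mul_matPsi hbdd i j)

end Properties

end Fermat.Agent.H94
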