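/-
P-DIM (S20), helper94: behaviour at infinity, main theorems in the `Σ ω, ZMod (h ω)` indexing.
-/
import Fermat.Agent.H94.SigmaInf

set_option autoImplicit false
set_option linter.unusedSectionVars false

namespace Fermat.Agent.H94

open Filter Topology Complex Function Asymptotics
open UpperHalfPlane hiding I
open scoped Manifold Real

variable {Ω : Type} [Fintype Ω] [DecidableEq Ω] {h : Ω → ℕ} [∀ ω, NeZero (h ω)]
variable {Φ : SigIdx h → SigIdx h → ℍ → ℂ}
variable (hhol : ∀ j i, MDiff (Φ j i))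
variable (hbdd : ∀ j i, IsBoundedAtImInfty (Φ j i))
variable (hper : ∀ (j : SigIdx h) (ω : Ω) (r : ZMod (h ω)) (z : ℍ),
  Φ j ⟨ω, r⟩ ((1 : ℝ) +ᵥ z) = Φ j ⟨ω, r + 1⟩ z)
variable (hnd : ∀ c : SigIdx h → ℂ,
  (∀ i, IsBoundedAtImInfty (fun z : ℍ => (∑ j, c j * Φ j i z) / ModularForm.discriminant z)) →
    c = 0)

/-- The matrix of leading coefficients. -/
noncomputable def limMat (hhol : ∀ j i, MDiff (Φ j i))
    (hbdd : ∀ j i, IsBoundedAtImInfty (Φ j i))
    (hper : ∀ (j : SigIdx h) (ω : Ω) (r : ZMod (h ω)) (z : ℍ),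
      Φ j ⟨ω, r⟩ ((1 : ℝ) +ᵥ z) = Φ j ⟨ω, r + 1⟩ z) :
    Matrix (SigIdx h) (SigIdx h) ℂ :=
  fun i j => Classical.choose (exists_lim_matPsi hhol hbdd hper i j)

theorem tendsto_matPsi_apply (i j : SigIdx h) :
    Tendsto (fun z => matPsi h Φ z i j) atImInfty (𝓝 (limMat hhol hbdd hper i j)) :=
  Classical.choose_spec (exists_lim_matPsi hhol hbdd hper i j)

theorem tendsto_matPsi :
    Tendsto (fun z => matPsi h Φ z) atImInfty (𝓝 (limMat hhol hbdd hper)) := by
  refine (tendsto_pi_nhds (f := fun z i => matPsi h Φ z i)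
    (g := fun i => limMat hhol hbdd hper i)).mpr fun i => ?_
  refine (tendsto_pi_nhds (f := fun z j => matPsi h Φ z i j)
    (g := fun j => limMat hhol hbdd hper i j)).mpr fun j => ?_
  exact tendsto_matPsi_apply hhol hbdd hper i j

theorem tendsto_det_matPsi :
    Tendsto (fun z => (matPsi h Φ z).det) atImInfty (𝓝 (limMat hhol hbdd hper).det) :=
  ((continuous_id.matrix_det).tendsto _).comp (tendsto_matPsi hhol hbdd hper)

/-- entries of `matM *ᵥ c` in terms of `matPsi *ᵥ c`. -/
theorem matM_mulVec (c : SigIdx h → ℂ) (z : ℍ) (i : SigIdx h) :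
    (∑ j, c j * Φ j i z) = ∑ i', dftW' h i i' *
      (cexp (2 * π * I * (z : ℂ) * (expo h i' : ℂ)) * ∑ j, matPsi h Φ z i' j * c j) := by
  have h1 : (∑ j, c j * Φ j i z) = (matM h Φ z).mulVec c i := by
    simp only [Matrix.mulVec, dotProduct, matM, Matrix.of_apply]
    apply Finset.sum_congr rfl
    intro j _
    ring
  rw [h1, matM_eq h Φ z, ← Matrix.mulVec_mulVec, ← Matrix.mulVec_mulVec]
  simp only [Matrix.mulVec, dotProduct]
  apply Finset.sum_congr rfl
  intro i' _
  congr 1
  unfold matD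
  simp only [Matrix.diagonal_apply, ite_mul, zero_mul]
  rw [Finset.sum_ite_eq]
  simp

include hhol hbdd hper hnd in
theorem det_limMat_ne_zero : (limMat hhol hbdd hper).det ≠ 0 := by
  intro hdet
  obtain ⟨c, hc, hc0⟩ := Matrix.exists_mulVec_eq_zero_iff.mpr hdet
  apply hc
  apply hnd
  intro i
  -- the combinations `ψ_c i' = Σ_j Ψ i' j c_j` tend to zero, hence decay exponentially
  have hdecay : ∀ i' : SigIdx h, (fun z : ℍ => ∑ j, matPsi h Φ z i' j * c j)
      =O[atImInfty] fun z : ℍ => Real.exp (-2 * π * z.im) := by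
    intro i'
    apply isBigO_exp_of_periodic_of_tendsto_zero
    · have : (fun z : ℍ => ∑ j, matPsi h Φ z i' j * c j) =
          ∑ j, (fun z : ℍ => matPsi h Φ z i' j * c j) := by
        funext z; simp
      rw [this]
      refine MDifferentiable.sum ?_
      intro j _
      exact (mdiff_matPsi hhol i' j).mul mdifferentiable_const
    · intro z
      simp_rw [matPsi_periodic hper]
    · have h0 : (limMat hhol hbdd hper).mulVec c i' = 0 := by rw [hc0]; rfl
      rw [← h0]
      simp only [Matrix.mulVec, dotProduct]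
      apply tendsto_finsetSum
      intro j _
      exact (tendsto_matPsi_apply hhol hbdd hper i' j).mul_const _
  -- so does the combination of the original functions
  have hO : (fun z : ℍ => ∑ j, c j * Φ j i z) =O[atImInfty]
      fun z : ℍ => Real.exp (-2 * π * z.im) := by
    simp_rw [matM_mulVec]
    have hfun : (fun z : ℍ => ∑ i', dftW' h i i' *
        (cexp (2 * π * I * (z : ℂ) * (expo h i' : ℂ)) * ∑ j, matPsi h Φ z i' j * c j)) =
        ∑ i', (fun z : ℍ => dftW' h i i' *
        (cexp (2 * π * I * (z : ℂ) * (expo h i' : ℂ)) * ∑ j, matPsi h Φ z i' j * c j)) := by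
      funext z; simp
    rw [hfun]
    apply IsBigO.sum
    intro i' _
    have hb : (fun z : ℍ => dftW' h i i' * cexp (2 * π * I * (z : ℂ) * (expo h i' : ℂ)))
        =O[atImInfty] fun _ : ℍ => (1 : ℝ) := by
      apply IsBigO.of_bound 1
      filter_upwards with z
      rw [norm_mul, one_mul, norm_one]
      calc ‖dftW' h i i'‖ * ‖cexp (2 * π * I * (z : ℂ) * (expo h i' : ℂ))‖
          ≤ 1 * 1 := mul_le_mul (norm_dftW'_le h i i') (norm_cexp_le_one z (expo_nonneg h i'))
            (norm_nonneg _) zero_le_one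
        _ = 1 := one_mul 1
    have := hb.mul (hdecay i')
    simp only [one_mul] at this
    refine this.congr_left ?_
    intro z
    ring
  have hΔ := hO.trans ModularForm.exp_isBigO_discriminant
  obtain ⟨C, hC⟩ := hΔ.bound
  unfold IsBoundedAtImInfty BoundedAtFilter
  apply IsBigO.of_bound C
  filter_upwards [hC] with z hz
  simp only [Pi.one_apply, norm_one, mul_one]
  rw [norm_div]
  have hne : ‖ModularForm.discriminant z‖ ≠ 0 :=
    norm_ne_zero_iff.mpr (ModularForm.discriminant_ne_zero z)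
  rw [div_le_iff₀ (lt_of_le_of_ne (norm_nonneg _) (Ne.symm hne))]
  exact hz

include hhol hbdd hper hnd in
/-- **INF-1**, sigma version. -/
theorem sigma_inf_one :
    ∃ C : ℂ, C ≠ 0 ∧ Tendsto (fun z : ℍ => (Matrix.of fun i j => Φ j i z).det *
      cexp (-(2 * π * I * (z : ℂ) * expoSum h))) atImInfty (𝓝 C) := by
  refine ⟨(dftW' h).det * (limMat hhol hbdd hper).det,
    mul_ne_zero (det_dftW'_ne_zero h) (det_limMat_ne_zero hhol hbdd hper hnd), ?_⟩
  have := (tendsto_det_matPsi hhol hbdd hper).const_mul (dftW' h).det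
  refine this.congr ?_
  intro z
  exact (det_matM h Φ z).symm

end Fermat.Agent.H94
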