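/-
P-DIM (S20), helper94: behaviour at infinity, INF-2 and INF-3 in the `Σ ω, ZMod (h ω)` indexing.
-/
import Fermat.Agent.H94.SigmaMain

set_option autoImplicit false
set_option linter.unusedSectionVars false

namespace Fermat.Agent.H94

open Filter Topology Complex Function Asymptotics
open UpperHalfPlane hiding I
open scoped Manifold Real

variable {Ω : Type} [Fintype Ω] [DecidableEq Ω] {h : Ω → ℕ} [∀ ω, NeZero (h ω)]
variable {Φ : SigIdx h → SigIdx h → ℍ → ℂ}
variable (hhol : ∀ j i, MDiff (Φ j i))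
variable (hbdd : ∀ j i, IsBoundedAtImInfty (Φ j i))
variable (hper : ∀ (j : SigIdx h) (ω : Ω) (r : ZMod (h ω)) (z : ℍ),
  Φ j ⟨ω, r⟩ ((1 : ℝ) +ᵥ z) = Φ j ⟨ω, r + 1⟩ z)
variable (hnd : ∀ c : SigIdx h → ℂ,
  (∀ i, IsBoundedAtImInfty (fun z : ℍ => (∑ j, c j * Φ j i z) / ModularForm.discriminant z)) →
    c = 0)

/-- the real exponent sum -/
noncomputable def expoSumReal (h : Ω → ℕ) [∀ ω, NeZero (h ω)] : ℝ := ∑ i : SigIdx h, expo h i

theorem expoSumReal_cast : ((expoSumReal h : ℝ) : ℂ) = expoSum h := by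
  unfold expoSumReal expoSum
  push_cast
  apply Finset.sum_congr rfl
  intro i _
  exact expo_cast h i

theorem two_mul_expoSumReal :
    2 * expoSumReal h = (Fintype.card (SigIdx h) : ℝ) - (Fintype.card Ω : ℝ) := by
  have := two_mul_expoSum h
  rw [← expoSumReal_cast] at this
  exact_mod_cast this

/-- If `exp(2πi z m)` has a nonzero limit at `i∞` then `m = 0`. -/
theorem eq_zero_of_tendsto_cexp {m : ℝ} {ℓ : ℂ} (hℓ : ℓ ≠ 0)
    (hlim : Tendsto (fun z : ℍ => cexp (2 * π * I * (z : ℂ) * (m : ℂ))) atImInfty (𝓝 ℓ)) :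
    m = 0 := by
  rcases lt_trichotomy m 0 with hm | hm | hm
  · exfalso
    have h1 := tendsto_cexp_neg_mul_norm_atImInfty (t := -m) (neg_pos.mpr hm)
    have h2 : Tendsto (fun z : ℍ => ‖cexp (2 * π * I * (z : ℂ) * (m : ℂ))‖) atImInfty (𝓝 ‖ℓ‖) :=
      hlim.norm
    have h3 : (fun z : ℍ => ‖cexp (-(2 * π * I * (z : ℂ) * ((-m : ℝ) : ℂ)))‖) =
        fun z : ℍ => ‖cexp (2 * π * I * (z : ℂ) * (m : ℂ))‖ := by
      funext z
      congr 2
      push_cast
      ring
    rw [h3] at h1
    exact not_tendsto_nhds_of_tendsto_atTop h1 _ h2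
  · exact hm
  · exfalso
    have h1 := tendsto_cexp_mul_atImInfty hm
    exact hℓ (tendsto_nhds_unique hlim h1)

include hhol hbdd hper hnd in
/-- **INF-2**, sigma version (real form). -/
theorem sigma_inf_two_real (K : ℕ) (c' : ℂ) (hc' : c' ≠ 0)
    (hdet : ∀ z : ℍ, (Matrix.of fun i j => Φ j i z).det ^ 12 =
      c' * ModularForm.discriminant z ^ K) :
    (K : ℝ) = 12 * expoSumReal h := by
  obtain ⟨C, hC, hlim⟩ := sigma_inf_one hhol hbdd hper hnd
  have hΔ := tendsto_discriminant_mul_cexp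
  -- the quotient tends to `C^12 / c'`
  have h1 : Tendsto (fun z : ℍ => ((Matrix.of fun i j => Φ j i z).det *
      cexp (-(2 * π * I * (z : ℂ) * expoSum h))) ^ 12 /
      (c' * (ModularForm.discriminant z * cexp (-(2 * π * I * (z : ℂ)))) ^ K))
      atImInfty (𝓝 (C ^ 12 / (c' * 1 ^ K))) := by
    refine (hlim.pow 12).div ((hΔ.pow K).const_mul c') ?_
    simp [hc']
  have hℓ : C ^ 12 / (c' * 1 ^ K) ≠ 0 := by
    simp [hC, hc']
  have h2 : ∀ z : ℍ, ((Matrix.of fun i j => Φ j i z).det *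
      cexp (-(2 * π * I * (z : ℂ) * expoSum h))) ^ 12 /
      (c' * (ModularForm.discriminant z * cexp (-(2 * π * I * (z : ℂ)))) ^ K) =
      cexp (2 * π * I * (z : ℂ) * (((K : ℝ) - 12 * expoSumReal h : ℝ) : ℂ)) := by
    intro z
    have hΔne : ModularForm.discriminant z ≠ 0 := ModularForm.discriminant_ne_zero z
    rw [mul_pow, hdet z, mul_pow, ← Complex.exp_nat_mul, ← Complex.exp_nat_mul]
    have he : cexp (2 * π * I * (z : ℂ) * (((K : ℝ) - 12 * expoSumReal h : ℝ) : ℂ)) =
        cexp (((12 : ℕ) : ℂ) * -(2 * π * I * (z : ℂ) * expoSum h)) /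
          cexp ((K : ℂ) * -(2 * π * I * (z : ℂ))) := by
      rw [← Complex.exp_sub]
      congr 1
      rw [← expoSumReal_cast]
      push_cast
      ring
    rw [he]
    have hne1 : cexp ((K : ℂ) * -(2 * π * I * (z : ℂ))) ≠ 0 := Complex.exp_ne_zero _
    have hne2 : ModularForm.discriminant z ^ K ≠ 0 := pow_ne_zero _ hΔne
    field_simp
  have h3 := eq_zero_of_tendsto_cexp hℓ (h1.congr h2)
  linarith

include hhol hbdd hper hnd in
/-- **INF-2**, sigma version. -/
theorem sigma_inf_two (K : ℕ) (c' : ℂ) (hc' : c' ≠ 0)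
    (hdet : ∀ z : ℍ, (Matrix.of fun i j => Φ j i z).det ^ 12 =
      c' * ModularForm.discriminant z ^ K) :
    K + 6 * Fintype.card Ω = 6 * Fintype.card (SigIdx h) := by
  have h1 := sigma_inf_two_real hhol hbdd hper hnd K c' hc' hdet
  have h2 := two_mul_expoSumReal (h := h)
  have h3 : ((K + 6 * Fintype.card Ω : ℕ) : ℝ) = ((6 * Fintype.card (SigIdx h) : ℕ) : ℝ) := by
    push_cast
    linarith
  exact_mod_cast h3

include hhol hbdd hper hnd in
/-- **INF-3**, sigma version: `Δ · M⁻¹ → 0` entrywise. -/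
theorem sigma_inf_three (j i : SigIdx h) :
    IsZeroAtImInfty (fun z : ℍ => ModularForm.discriminant z *
      ((Matrix.of fun i j => Φ j i z)⁻¹ : Matrix (SigIdx h) (SigIdx h) ℂ) j i) := by
  have hdetne := det_limMat_ne_zero hhol hbdd hper hnd
  have hev : ∀ᶠ z in atImInfty, (matPsi h Φ z).det ≠ 0 :=
    (tendsto_det_matPsi hhol hbdd hper).eventually_ne hdetne
  -- formula for the inverse
  have hinv : ∀ᶠ z in atImInfty, ModularForm.discriminant z *
      ((Matrix.of fun i j => Φ j i z)⁻¹ : Matrix (SigIdx h) (SigIdx h) ℂ) j i =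
      ∑ i', (matPsi h Φ z)⁻¹ j i' *
        ((ModularForm.discriminant z * cexp (-(2 * π * I * (z : ℂ) * (expo h i' : ℂ)))) *
          dftW h i' i) := by
    filter_upwards [hev] with z hz
    have hunit : IsUnit (matPsi h Φ z).det := isUnit_iff_ne_zero.mpr hz
    have hM : (Matrix.of fun i j => Φ j i z) = matM h Φ z := rfl
    have hprod : matM h Φ z * ((matPsi h Φ z)⁻¹ * (matDinv h z * dftW h)) = 1 := by
      rw [matM_eq h Φ z]
      calc dftW' h * (matD h z * matPsi h Φ z) * ((matPsi h Φ z)⁻¹ * (matDinv h z * dftW h))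
          = dftW' h * (matD h z * (matPsi h Φ z * (matPsi h Φ z)⁻¹) * matDinv h z) * dftW h := by
            simp only [Matrix.mul_assoc]
        _ = 1 := by
            rw [Matrix.mul_nonsing_inv _ hunit, Matrix.mul_one, matD_mul_matDinv, Matrix.mul_one,
              dftW'_mul_dftW]
    rw [hM, Matrix.inv_eq_right_inv hprod, Matrix.mul_apply, Finset.mul_sum]
    apply Finset.sum_congr rfl
    intro i' _
    unfold matDinv
    rw [Matrix.diagonal_mul]
    ring
  refine Tendsto.congr' (EventuallyEq.symm hinv) ?_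
  have hzero : (0 : ℂ) = ∑ i' : SigIdx h, ((limMat hhol hbdd hper)⁻¹ j i') * (0 * dftW h i' i) := by
    simp
  rw [hzero]
  apply tendsto_finsetSum
  intro i' _
  refine Tendsto.mul ?_ (Tendsto.mul_const _ ?_)
  · -- continuity of the inverse
    have hcont : ContinuousAt (Inv.inv : Matrix (SigIdx h) (SigIdx h) ℂ → _)
        (limMat hhol hbdd hper) := by
      apply continuousAt_matrix_inv
      rw [Ring.inverse_eq_inv']
      exact continuousAt_inv₀ hdetne
    have := (hcont.tendsto.comp (tendsto_matPsi hhol hbdd hper))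
    have h1 := (continuous_apply i').tendsto _ |>.comp
      ((continuous_apply j).tendsto _ |>.comp this)
    exact h1
  · -- `Δ(z) exp(-2πi z θ) → 0` for `θ < 1`
    have h1 := tendsto_discriminant_mul_cexp
    have h2 := tendsto_cexp_mul_atImInfty (sub_pos.mpr (expo_lt_one h i'))
    have h3 := h1.mul h2
    rw [one_mul] at h3
    refine h3.congr ?_
    intro z
    rw [mul_assoc, ← Complex.exp_add]
    congr 2
    push_cast
    ring

end Fermat.Agent.H94
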