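/-
P-DIM (S20), helper94: BEHAVIOUR AT INFINITY (subtask DIM-INF), final statements.

Setting: a group `G` acting on a finite set `Q` (cosets), an element `g : G` (the action of `T⁻¹`),
and a square family `Φ j q : ℍ → ℂ` (`j` = generator, `q` = coset) of holomorphic functions,
bounded at `i∞`, with `Φ j q (1 + z) = Φ j (g • q) z`, which is nondegenerate at infinity:
no nontrivial combination `Σ_j c_j Φ j q` is divisible by `Δ` at `i∞` for all `q` simultaneously.

* `inf_one`  : `det (Φ j q z)_{q,j} · exp(-2πi z (μ - c)/2) → C ≠ 0`, `μ = #Q`, `c = #(orbits of g)`;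
* `inf_two`  : if `det ^ 12 = c' Δ ^ K` with `c' ≠ 0` then `K + 6 c = 6 μ`;
* `inf_three`: the entries of `Δ · (Φ j q z)_{q,j}⁻¹` tend to `0` at `i∞`.
-/
import Fermat.Agent.H94.SigmaMore
import Mathlib.Data.ZMod.QuotientGroup

set_option autoImplicit false
set_option linter.unusedSectionVars false

namespace Fermat.Agent.H94

open Filter Topology Complex Function Asymptotics MulAction
open UpperHalfPlane hiding I
open scoped Manifold Real

section Transport

variable {G : Type*} [Group G] {Q : Type} [MulAction G Q] [Fintype Q] [DecidableEq Q]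
variable (g : G)

/-- the set of orbits of `g` -/
abbrev Orb (G : Type*) [Group G] (Q : Type) [MulAction G Q] (g : G) : Type :=
  orbitRel.Quotient (Subgroup.zpowers g) Q

/-- length of the orbit -/
noncomputable def orbLen (ω : Orb G Q g) : ℕ := minimalPeriod (g • ·) ω.out

instance orbLen_neZero (ω : Orb G Q g) : NeZero (orbLen g ω) :=
  MulAction.minimalPeriod_pos g ω.out

/-- `Q` is the disjoint union of the cyclic orbits of `g`. -/
noncomputable def sigEquiv : Q ≃ Σ ω : Orb G Q g, ZMod (orbLen g ω) :=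
  (selfEquivSigmaOrbits (Subgroup.zpowers g) Q).trans
    (Equiv.sigmaCongrRight fun ω => orbitZPowersEquiv g ω.out)

theorem sigEquiv_symm_apply (ω : Orb G Q g) (k : ZMod (orbLen g ω)) :
    (sigEquiv g).symm ⟨ω, k⟩ = g ^ (ZMod.cast k : ℤ) • ω.out := rfl

theorem sigEquiv_apply (ω : Orb G Q g) (k : ℤ) :
    sigEquiv g (g ^ k • ω.out) = ⟨ω, (k : ZMod (orbLen g ω))⟩ := by
  rw [← Equiv.eq_symm_apply, sigEquiv_symm_apply, ZMod.coe_intCast]
  exact (zpow_smul_mod_minimalPeriod g ω.out k).symm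

theorem smul_sigEquiv_symm (ω : Orb G Q g) (r : ZMod (orbLen g ω)) :
    g • (sigEquiv g).symm ⟨ω, r⟩ = (sigEquiv g).symm ⟨ω, r + 1⟩ := by
  rw [Equiv.eq_symm_apply, sigEquiv_symm_apply, smul_smul]
  have h1 : g * g ^ (ZMod.cast r : ℤ) = g ^ ((ZMod.cast r : ℤ) + 1) := by
    rw [zpow_add_one]
    exact ((Commute.refl g).zpow_right _).eq
  rw [h1, sigEquiv_apply]
  congr 1
  push_cast
  rfl

/-- transported family -/
noncomputable def sigPhi (Φ : Q → Q → ℍ → ℂ) :
    SigIdx (orbLen (Q := Q) g) → SigIdx (orbLen (Q := Q) g) → ℍ → ℂ :=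
  fun j i => Φ ((sigEquiv g).symm j) ((sigEquiv g).symm i)

variable {g}
variable {Φ : Q → Q → ℍ → ℂ}
variable (hhol : ∀ j q, MDiff (Φ j q))
variable (hbdd : ∀ j q, IsBoundedAtImInfty (Φ j q))
variable (hper : ∀ (j q : Q) (z : ℍ), Φ j q ((1 : ℝ) +ᵥ z) = Φ j (g • q) z)
variable (hnd : ∀ c : Q → ℂ,
  (∀ q, IsBoundedAtImInfty (fun z : ℍ => (∑ j, c j * Φ j q z) / ModularForm.discriminant z)) →
    c = 0)

include hhol in
theorem sigPhi_hol (j i : SigIdx (orbLen (Q := Q) g)) : MDiff (sigPhi g Φ j i) := hhol _ _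

include hbdd in
theorem sigPhi_bdd (j i : SigIdx (orbLen (Q := Q) g)) : IsBoundedAtImInfty (sigPhi g Φ j i) :=
  hbdd _ _

include hper in
theorem sigPhi_per (j : SigIdx (orbLen (Q := Q) g)) (ω : Orb G Q g) (r : ZMod (orbLen g ω))
    (z : ℍ) : sigPhi g Φ j ⟨ω, r⟩ ((1 : ℝ) +ᵥ z) = sigPhi g Φ j ⟨ω, r + 1⟩ z := by
  unfold sigPhi
  rw [hper, smul_sigEquiv_symm]

include hnd in
theorem sigPhi_nd [Fintype (Orb G Q g)] (c : SigIdx (orbLen (Q := Q) g) → ℂ)
    (hc : ∀ i, IsBoundedAtImInfty (fun z : ℍ =>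
      (∑ j, c j * sigPhi g Φ j i z) / ModularForm.discriminant z)) : c = 0 := by
  have h1 : (fun q : Q => c (sigEquiv g q)) = 0 := by
    apply hnd
    intro q
    have := hc (sigEquiv g q)
    refine this.congr' ?_ (EventuallyEq.refl _ _)
    filter_upwards with z
    congr 1
    unfold sigPhi
    rw [Equiv.symm_apply_apply]
    exact (Fintype.sum_equiv (sigEquiv g) _ _ (fun q' => by rw [Equiv.symm_apply_apply])).symm
  funext i
  have := congrFun h1 ((sigEquiv g).symm i)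
  simpa using this

theorem matrix_sigPhi [Fintype (Orb G Q g)] [DecidableEq (Orb G Q g)] (z : ℍ) :
    (Matrix.of fun i j => sigPhi g Φ j i z : Matrix (SigIdx (orbLen (Q := Q) g)) _ ℂ) =
      (Matrix.of fun q j => Φ j q z : Matrix Q Q ℂ).submatrix (sigEquiv g).symm
        (sigEquiv g).symm := rfl

theorem card_sigIdx [Fintype (Orb G Q g)] :
    Fintype.card (SigIdx (orbLen (Q := Q) g)) = Fintype.card Q :=
  (Fintype.card_congr (sigEquiv g)).symm

include hhol hbdd hper hnd in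
/-- **INF-1**: the determinant of the fundamental matrix behaves like
`C · exp(2πi z (μ - c)/2)` at `i∞`, `C ≠ 0`. -/
theorem inf_one :
    ∃ C : ℂ, C ≠ 0 ∧ Tendsto (fun z : ℍ => (Matrix.of fun q j => Φ j q z : Matrix Q Q ℂ).det *
      cexp (-(2 * π * I * (z : ℂ) * (((Fintype.card Q : ℂ) -
        (Nat.card (orbitRel.Quotient (Subgroup.zpowers g) Q) : ℂ)) / 2)))) atImInfty (𝓝 C) := by
  classical
  let _ : Fintype (Orb G Q g) := Fintype.ofFinite _
  obtain ⟨C, hC, hlim⟩ := sigma_inf_one (h := orbLen (Q := Q) g) (Φ := sigPhi g Φ)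
    (sigPhi_hol hhol) (sigPhi_bdd hbdd) (sigPhi_per hper) (sigPhi_nd hnd)
  refine ⟨C, hC, hlim.congr ?_⟩
  intro z
  rw [matrix_sigPhi, Matrix.det_submatrix_equiv_self]
  congr 3
  have h2 := two_mul_expoSum (orbLen (Q := Q) g)
  rw [card_sigIdx] at h2
  rw [Nat.card_eq_fintype_card, ← h2]
  ring

include hhol hbdd hper hnd in
/-- **INF-2**: if `det ^ 12 = c' Δ ^ K` with `c' ≠ 0`, then `K = 6 (μ - c)`. -/
theorem inf_two (K : ℕ) (c' : ℂ) (hc' : c' ≠ 0)
    (hdet : ∀ z : ℍ, (Matrix.of fun q j => Φ j q z : Matrix Q Q ℂ).det ^ 12 =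
      c' * ModularForm.discriminant z ^ K) :
    K + 6 * Nat.card (orbitRel.Quotient (Subgroup.zpowers g) Q) = 6 * Fintype.card Q := by
  classical
  let _ : Fintype (Orb G Q g) := Fintype.ofFinite _
  have := sigma_inf_two (h := orbLen (Q := Q) g) (Φ := sigPhi g Φ)
    (sigPhi_hol hhol) (sigPhi_bdd hbdd) (sigPhi_per hper) (sigPhi_nd hnd) K c' hc' (by
      intro z
      rw [matrix_sigPhi, Matrix.det_submatrix_equiv_self]
      exact hdet z)
  rw [card_sigIdx] at this
  rw [Nat.card_eq_fintype_card]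
  exact this

include hhol hbdd hper hnd in
/-- **INF-3**: the entries of `Δ · M⁻¹` are zero at `i∞` (`M` = fundamental matrix, rows `q`,
columns `j`). -/
theorem inf_three (j q : Q) :
    IsZeroAtImInfty (fun z : ℍ => ModularForm.discriminant z *
      ((Matrix.of fun q j => Φ j q z : Matrix Q Q ℂ)⁻¹) j q) := by
  classical
  let _ : Fintype (Orb G Q g) := Fintype.ofFinite _
  have := sigma_inf_three (h := orbLen (Q := Q) g) (Φ := sigPhi g Φ)
    (sigPhi_hol hhol) (sigPhi_bdd hbdd) (sigPhi_per hper) (sigPhi_nd hnd)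
    (sigEquiv g j) (sigEquiv g q)
  refine this.congr ?_
  intro z
  rw [matrix_sigPhi, Matrix.inv_submatrix_equiv]
  simp

end Transport

section InvVariants

variable {G : Type*} [Group G] {Q : Type} [MulAction G Q] [Fintype Q] [DecidableEq Q]
variable {g : G} {Φ : Q → Q → ℍ → ℂ}

/-- the number of orbits of `g⁻¹` is the number of orbits of `g`. -/
theorem card_orbits_inv (g : G) :
    Nat.card (orbitRel.Quotient (Subgroup.zpowers g⁻¹) Q) =
      Nat.card (orbitRel.Quotient (Subgroup.zpowers g) Q) := by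
  rw [Subgroup.zpowers_inv]

/-- **INF-1** for `σ = g⁻¹`, with the orbit count expressed through `g`. -/
theorem inf_one_inv (hhol : ∀ j q, MDiff (Φ j q)) (hbdd : ∀ j q, IsBoundedAtImInfty (Φ j q))
    (hper : ∀ (j q : Q) (z : ℍ), Φ j q ((1 : ℝ) +ᵥ z) = Φ j (g⁻¹ • q) z)
    (hnd : ∀ c : Q → ℂ,
      (∀ q, IsBoundedAtImInfty
        (fun z : ℍ => (∑ j, c j * Φ j q z) / ModularForm.discriminant z)) → c = 0) :
    ∃ C : ℂ, C ≠ 0 ∧ Tendsto (fun z : ℍ => (Matrix.of fun q j => Φ j q z : Matrix Q Q ℂ).det *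
      cexp (-(2 * π * I * (z : ℂ) * (((Fintype.card Q : ℂ) -
        (Nat.card (orbitRel.Quotient (Subgroup.zpowers g) Q) : ℂ)) / 2)))) atImInfty (𝓝 C) := by
  have := inf_one (g := g⁻¹) hhol hbdd hper hnd
  rwa [card_orbits_inv] at this

/-- **INF-2** for `σ = g⁻¹`, with the orbit count expressed through `g`. -/
theorem inf_two_inv (hhol : ∀ j q, MDiff (Φ j q)) (hbdd : ∀ j q, IsBoundedAtImInfty (Φ j q))
    (hper : ∀ (j q : Q) (z : ℍ), Φ j q ((1 : ℝ) +ᵥ z) = Φ j (g⁻¹ • q) z)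
    (hnd : ∀ c : Q → ℂ,
      (∀ q, IsBoundedAtImInfty
        (fun z : ℍ => (∑ j, c j * Φ j q z) / ModularForm.discriminant z)) → c = 0)
    (K : ℕ) (c' : ℂ) (hc' : c' ≠ 0)
    (hdet : ∀ z : ℍ, (Matrix.of fun q j => Φ j q z : Matrix Q Q ℂ).det ^ 12 =
      c' * ModularForm.discriminant z ^ K) :
    K + 6 * Nat.card (orbitRel.Quotient (Subgroup.zpowers g) Q) = 6 * Fintype.card Q := by
  have := inf_two (g := g⁻¹) hhol hbdd hper hnd K c' hc' hdet
  rwa [card_orbits_inv] at this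

end InvVariants

end Fermat.Agent.H94
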