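/-
P-DIM (S20), helper94: the statements of DIM-INF (behaviour at infinity) in the vocabulary of
`Fermat.Agent.H19` (`Q N`, `cosetFun`, `Phi`), ready for the final assembly.

* `glue_inf_one`        : `det Φ(z) · exp(-2πi z (μ - c)/2) → C ≠ 0`;
* `glue_sum_weights_eq` : `Σ_j k_j = 6 (μ - c)` (in `ℤ`), from `det Φ ^ 12 = c' Δ ^ (Σ k_j)`;
* `glue_inf_three`      : the entries of `Δ · Φ⁻¹` are zero at `i∞`.

Here `μ = #(SL₂(ℤ)/Γ₀(N))` and `c` is the number of orbits of `T` on the cosets.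
-/
import Fermat.Agent.H94.Infinity
import Fermat.Agent.H19.Coset

set_option autoImplicit false

namespace Fermat.Agent.H94

open Filter Topology Complex Function Asymptotics MulAction
open UpperHalfPlane hiding I
open Fermat.Agent.H19
open scoped Manifold Real MatrixGroups

section Glue

variable {N : ℕ} [Fintype (Q N)] [DecidableEq (Q N)] {k : Q N → ℤ} {f : Q N → ℍ → ℂ}

omit [Fintype (Q N)] [DecidableEq (Q N)] in
theorem glue_matrix_eq (z : ℍ) :
    (Matrix.of fun q j => cosetFun N (k j) (f j) q z : Matrix (Q N) (Q N) ℂ) = Phi N k f z :=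
  rfl

/-- **INF-1** in the vocabulary of `Fermat.Agent.H19`. -/
theorem glue_inf_one (hmf : ∀ j, IsMF N (k j) (f j))
    (hnd : ∀ c : Q N → ℂ, (∀ q, IsBoundedAtImInfty (fun z : ℍ =>
      (∑ j, c j * cosetFun N (k j) (f j) q z) / ModularForm.discriminant z)) → c = 0) :
    ∃ C : ℂ, C ≠ 0 ∧ Tendsto (fun z : ℍ => (Phi N k f z).det *
      cexp (-(2 * π * I * (z : ℂ) * (((Fintype.card (Q N) : ℂ) -
        (Nat.card (orbitRel.Quotient (Subgroup.zpowers ModularGroup.T) (Q N)) : ℂ)) / 2))))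
      atImInfty (𝓝 C) :=
  inf_one_inv (G := SL(2, ℤ)) (g := ModularGroup.T)
    (Φ := fun j q => cosetFun N (k j) (f j) q)
    (fun j q => (hmf j).cosetFun_mdiff q) (fun j q => (hmf j).cosetFun_bdd q)
    (fun j q z => cosetFun_vadd (hmf j).inv q z) hnd

/-- **INF-2** in the vocabulary of `Fermat.Agent.H19`: the sum of the weights of a square
system which is nondegenerate at infinity and whose determinant is a power of `Δ`. -/
theorem glue_sum_weights_eq (hmf : ∀ j, IsMF N (k j) (f j)) (hnn : 0 ≤ ∑ j, k j)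
    (hnd : ∀ c : Q N → ℂ, (∀ q, IsBoundedAtImInfty (fun z : ℍ =>
      (∑ j, c j * cosetFun N (k j) (f j) q z) / ModularForm.discriminant z)) → c = 0)
    (c : ℂ) (hc : c ≠ 0)
    (hdet : ∀ z : ℍ, (Phi N k f z).det ^ 12 = c * ModularForm.discriminant z ^ (∑ j, k j)) :
    ∑ j, k j = 6 * ((Nat.card (Q N) : ℤ) -
      Nat.card (orbitRel.Quotient (Subgroup.zpowers ModularGroup.T) (Q N))) := by
  obtain ⟨K, hK⟩ := Int.eq_ofNat_of_zero_le hnn
  have h1 : K + 6 * Nat.card (orbitRel.Quotient (Subgroup.zpowers ModularGroup.T) (Q N)) =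
      6 * Fintype.card (Q N) := inf_two_inv (G := SL(2, ℤ)) (g := ModularGroup.T)
    (Φ := fun j q => cosetFun N (k j) (f j) q)
    (fun j q => (hmf j).cosetFun_mdiff q) (fun j q => (hmf j).cosetFun_bdd q)
    (fun j q z => cosetFun_vadd (hmf j).inv q z) hnd K c hc (by
      intro z
      have := hdet z
      rw [hK, zpow_natCast] at this
      exact this)
  rw [hK, Nat.card_eq_fintype_card]
  have h2 := congrArg (Nat.cast : ℕ → ℤ) h1
  push_cast at h2
  linarith

/-- **INF-3** in the vocabulary of `Fermat.Agent.H19`: the entries of `Δ · Φ⁻¹` vanish at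
`i∞`. -/
theorem glue_inf_three (hmf : ∀ j, IsMF N (k j) (f j))
    (hnd : ∀ c : Q N → ℂ, (∀ q, IsBoundedAtImInfty (fun z : ℍ =>
      (∑ j, c j * cosetFun N (k j) (f j) q z) / ModularForm.discriminant z)) → c = 0)
    (j q : Q N) :
    IsZeroAtImInfty (fun z : ℍ => ModularForm.discriminant z * (Phi N k f z)⁻¹ j q) :=
  inf_three (G := SL(2, ℤ)) (g := ModularGroup.T⁻¹)
    (Φ := fun j q => cosetFun N (k j) (f j) q)
    (fun j q => (hmf j).cosetFun_mdiff q) (fun j q => (hmf j).cosetFun_bdd q)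
    (fun j q z => cosetFun_vadd (hmf j).inv q z) hnd j q

end Glue

section GlueGens

variable {N : ℕ} [NeZero N] {k : Q N → ℤ} {f : Q N → ℍ → ℂ}

/-- `glue_sum_weights_eq` for a free generating system (global instances on `Q N`). -/
theorem glue_sum_weights_eq_of_isGens (h : IsGens N (Q N) k f)
    (hnd : ∀ c : Q N → ℂ, (∀ q, IsBoundedAtImInfty (fun z : ℍ =>
      (∑ j, c j * cosetFun N (k j) (f j) q z) / ModularForm.discriminant z)) → c = 0)
    (c : ℂ) (hc : c ≠ 0)
    (hdet : ∀ z : ℍ, (Phi N k f z).det ^ 12 = c * ModularForm.discriminant z ^ (∑ j, k j)) :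
    ∑ j, k j = 6 * ((Nat.card (Q N) : ℤ) -
      Nat.card (orbitRel.Quotient (Subgroup.zpowers ModularGroup.T) (Q N))) :=
  glue_sum_weights_eq h.isMF (Finset.sum_nonneg fun j _ => h.nonneg j) hnd c hc hdet

/-- `glue_inf_three` for a free generating system (global instances on `Q N`). -/
theorem glue_inf_three_of_isGens (h : IsGens N (Q N) k f)
    (hnd : ∀ c : Q N → ℂ, (∀ q, IsBoundedAtImInfty (fun z : ℍ =>
      (∑ j, c j * cosetFun N (k j) (f j) q z) / ModularForm.discriminant z)) → c = 0)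
    (j q : Q N) :
    IsZeroAtImInfty (fun z : ℍ => ModularForm.discriminant z * (Phi N k f z)⁻¹ j q) :=
  glue_inf_three h.isMF hnd j q

end GlueGens

end Fermat.Agent.H94
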