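/-
P-DIM (S20), helper94: DIM-INF composed with AS-3 (nondegeneracy, helper2) and the determinant
identity (helper34): for a free generating system `f` of `M_*(Γ₀(N))` over `M_*(SL₂(ℤ))`
indexed by the cosets, whose fundamental matrix is somewhere invertible,

* `final_sum_weights_eq` : `Σ_j k_j = 6 (μ - c)`;
* `final_inf_three`      : the entries of `Δ · Φ⁻¹` are zero at `i∞`.
-/
import Fermat.Agent.H94.DimGlue
import Fermat.Agent.H2.DimNondegInfty
import Fermat.Agent.H34.DetPhi

set_option autoImplicit false

namespace Fermat.Agent.H94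

open Filter Topology MulAction
open UpperHalfPlane hiding I
open Fermat.Agent.H19
open scoped Manifold Real MatrixGroups

variable {N : ℕ} [NeZero N] {k : Q N → ℤ} {f : Q N → ℍ → ℂ}

/-- The sum of the weights of a free generating system indexed by the cosets. -/
theorem final_sum_weights_eq (h : IsGens N (Q N) k f)
    (h₁ : ∃ z₁ : ℍ, (Phi N k f z₁).det ≠ 0) :
    ∑ j, k j = 6 * ((Nat.card (Q N) : ℤ) -
      Nat.card (orbitRel.Quotient (Subgroup.zpowers ModularGroup.T) (Q N))) := by
  obtain ⟨c, hc, hdet⟩ := Fermat.Agent.H34.det_Phi_pow N h h₁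
  exact glue_sum_weights_eq_of_isGens h (Fermat.Agent.H2.nondegenerate_at_infty N h) c hc hdet

/-- The entries of `Δ · Φ⁻¹` vanish at `i∞`, for a free generating system. -/
theorem final_inf_three (h : IsGens N (Q N) k f) (j q : Q N) :
    IsZeroAtImInfty (fun z : ℍ => ModularForm.discriminant z * (Phi N k f z)⁻¹ j q) :=
  glue_inf_three_of_isGens h (Fermat.Agent.H2.nondegenerate_at_infty N h) j q

end Fermat.Agent.H94
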